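import Mathlib

/-!
# Row S59, cell (C) LO-SQ — EASY half, algebra (helper207)

Pure algebra over a commutative local ring `R` whose maximal ideal contains the prime `p`.

* `natCast_not_mem_maximalIdeal` : `p ∤ n ⟹ (n : R) ∉ 𝔪`.
* `trace_det_of_charpoly_pow_eq` : a `2 × 2` matrix `M` over `R` with
  `charpoly (M ^ q) = charpoly M`, `tr M ≡ 2`, `det M ≡ 1 mod 𝔪` and `p ∤ q ^ 2 - 1`
  has `tr M = 2` and `det M = 1`.
  (`d = det M`: `d ^ q = d`, `d` a unit, so `(d - 1)(1 + d + … + d^(q-2)) = 0` with second factor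
  `≡ q - 1`, a unit.  `t = tr M = 2 + ε`: `tr (M ^ k) = 2 + ε f_k` with `f_k ≡ k ^ 2 mod 𝔪`
  (recursion `M² = t M - 1`), so `ε (f_q - 1) = 0` with `f_q - 1 ≡ q ^ 2 - 1`, a unit.)
* `charpoly_eq_of_pow_of_residue` : the same for an endomorphism of a free module of rank `2`:
  `charpoly T = (X - 1) ^ 2`.
-/

set_option autoImplicit false
set_option linter.unusedSectionVars false

namespace Fermat.Agent.S59.H207

open Polynomial IsLocalRing

variable {R : Type*} [CommRing R] [IsLocalRing R]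

/-- If `p ∈ 𝔪` and `p ∤ n` then `(n : R) ∉ 𝔪`. -/
theorem natCast_not_mem_maximalIdeal {p : ℕ} (hp : p.Prime) (hpR : (p : R) ∈ maximalIdeal R)
    {n : ℕ} (hn : ¬ p ∣ n) : (n : R) ∉ maximalIdeal R := by
  intro hmem
  have hcop : Nat.Coprime p n := (Nat.Prime.coprime_iff_not_dvd hp).2 hn
  have hb : (p : ℤ) * Nat.gcdA p n + (n : ℤ) * Nat.gcdB p n = 1 := by
    have := Nat.gcd_eq_gcd_ab p n
    rw [hcop.gcd_eq_one] at this
    exact_mod_cast this.symm
  have h1 : ((p : R) * ((Nat.gcdA p n : ℤ) : R) + (n : R) * ((Nat.gcdB p n : ℤ) : R)) = 1 := by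
    have := congrArg (Int.cast : ℤ → R) hb
    push_cast at this
    exact this
  have h2 : (1 : R) ∈ maximalIdeal R := by
    rw [← h1]
    exact Ideal.add_mem _ (Ideal.mul_mem_right _ _ hpR) (Ideal.mul_mem_right _ _ hmem)
  exact (Ideal.ne_top_iff_one _).1 (maximalIdeal.isMaximal R).ne_top h2

/-- An element congruent to a non-element of `𝔪` is a unit. -/
theorem isUnit_of_sub_mem {a b : R} (hab : a - b ∈ maximalIdeal R) (hb : b ∉ maximalIdeal R) :
    IsUnit a := by
  by_contra ha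
  have ha' : a ∈ maximalIdeal R := (mem_maximalIdeal a).2 (by simpa [mem_nonunits_iff] using ha)
  apply hb
  have : b = a - (a - b) := by ring
  rw [this]
  exact Ideal.sub_mem _ ha' hab

section Matrix

variable (M : Matrix (Fin 2) (Fin 2) R)

/-- Cayley–Hamilton for `2 × 2` matrices. -/
theorem sq_eq_trace_smul_sub_det :
    M ^ 2 = M.trace • M - M.det • (1 : Matrix (Fin 2) (Fin 2) R) := by
  have h := Matrix.aeval_self_charpoly M
  rw [Matrix.charpoly_fin_two] at h
  simp only [map_add, map_sub, map_mul, map_pow, aeval_X, aeval_C,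
    Algebra.algebraMap_eq_smul_one] at h
  have h' : M ^ 2 = (M.trace • (1 : Matrix (Fin 2) (Fin 2) R)) * M - M.det • 1 := by
    rw [← sub_eq_zero]
    rw [← h]
    abel
  rw [h', smul_mul_assoc, one_mul]

/-- The trace recursion `s_{k+2} = t s_{k+1} - d s_k`. -/
theorem trace_pow_add_two (k : ℕ) :
    (M ^ (k + 2)).trace = M.trace * (M ^ (k + 1)).trace - M.det * (M ^ k).trace := by
  have h : M ^ (k + 2) = M.trace • M ^ (k + 1) - M.det • M ^ k := by
    rw [pow_add, sq_eq_trace_smul_sub_det, mul_sub, mul_smul_comm, mul_smul_comm, mul_one,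
      ← pow_succ]
  rw [h, Matrix.trace_sub, Matrix.trace_smul, Matrix.trace_smul, smul_eq_mul, smul_eq_mul]

theorem trace_one_fin_two : (1 : Matrix (Fin 2) (Fin 2) R).trace = 2 := by
  simp [Matrix.trace_one]

/-- With `det M = 1` and `tr M = 2 + ε`: `tr (M ^ k) = 2 + ε f_k` with `f_k ≡ k ^ 2` modulo any
ideal containing `ε`. -/
theorem exists_trace_pow_eq (hd : M.det = 1) (I : Ideal R) (hε : M.trace - 2 ∈ I) (k : ℕ) :
    (∃ f : R, (M ^ k).trace = 2 + (M.trace - 2) * f ∧ f - (k : R) ^ 2 ∈ I) ∧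
    (∃ f : R, (M ^ (k + 1)).trace = 2 + (M.trace - 2) * f ∧ f - ((k + 1 : ℕ) : R) ^ 2 ∈ I) := by
  induction k with
  | zero =>
    refine ⟨⟨0, ?_, ?_⟩, ⟨1, ?_, ?_⟩⟩
    · rw [pow_zero, trace_one_fin_two]; ring
    · simp
    · rw [zero_add, pow_one]; ring
    · simp
  | succ k ih =>
    obtain ⟨⟨f, hf, hfI⟩, ⟨g, hg, hgI⟩⟩ := ih
    refine ⟨⟨g, hg, hgI⟩, ⟨M.trace * g - f + 2, ?_, ?_⟩⟩
    · rw [show k + 1 + 1 = k + 2 from rfl, trace_pow_add_two, hd, hg, hf]
      ring
    · have e : M.trace * g - f + 2 - ((k + 1 + 1 : ℕ) : R) ^ 2 =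
          (M.trace - 2) * g + 2 * (g - ((k + 1 : ℕ) : R) ^ 2) - (f - (k : R) ^ 2) := by
        push_cast
        ring
      rw [e]
      exact Ideal.sub_mem _ (Ideal.add_mem _ (Ideal.mul_mem_right _ _ hε)
        (Ideal.mul_mem_left _ _ hgI)) hfI

/-- **Algebra of the easy half.** -/
theorem trace_det_of_charpoly_pow_eq {p q : ℕ} (hp : p.Prime) (hpR : (p : R) ∈ maximalIdeal R)
    (hq : 2 ≤ q) (hcop : ¬ p ∣ q ^ 2 - 1)
    (hpow : (M ^ q).charpoly = M.charpoly)
    (ht : M.trace - 2 ∈ maximalIdeal R) (hd : M.det - 1 ∈ maximalIdeal R) :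
    M.trace = 2 ∧ M.det = 1 := by
  have hq1 : ¬ p ∣ q - 1 := by
    intro h
    apply hcop
    have : q ^ 2 - 1 = (q - 1) * (q + 1) := by
      obtain ⟨r, rfl⟩ : ∃ r, q = r + 1 := ⟨q - 1, by omega⟩
      simp only [Nat.add_sub_cancel]
      have : (r + 1) ^ 2 = r * (r + 1 + 1) + 1 := by ring
      rw [this, Nat.add_sub_cancel]
    rw [this]
    exact Dvd.dvd.mul_right h _
  -- traces and determinants of `M ^ q`
  have hcoef := hpow
  rw [Matrix.charpoly_fin_two, Matrix.charpoly_fin_two] at hcoef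
  have htr : (M ^ q).trace = M.trace := by
    have h1 := congrArg (fun P : R[X] => P.coeff 1) hcoef
    simp only [coeff_add, coeff_sub, coeff_X_pow, coeff_C_mul, coeff_X_one, coeff_C] at h1
    simpa using h1
  have hdet : (M ^ q).det = M.det := by
    have h0 := congrArg (fun P : R[X] => P.coeff 0) hcoef
    simp only [coeff_add, coeff_sub, coeff_X_pow, coeff_C_mul, coeff_X_zero, coeff_C_zero] at h0
    simpa using h0
  -- the determinant
  have hdu : IsUnit M.det := by
    refine isUnit_of_sub_mem (b := 1) hd ?_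
    exact fun h => (Ideal.ne_top_iff_one _).1 (maximalIdeal.isMaximal R).ne_top h
  have hd1 : M.det = 1 := by
    rw [Matrix.det_pow] at hdet
    have hq' : q = (q - 1) + 1 := by omega
    have h1 : M.det ^ (q - 1) = 1 := by
      have : M.det ^ (q - 1) * M.det = 1 * M.det := by
        rw [← pow_succ, ← hq', hdet, one_mul]
      exact hdu.mul_right_cancel this
    have h2 : (∑ i ∈ Finset.range (q - 1), M.det ^ i) * (M.det - 1) = 0 := by
      rw [geom_sum_mul, h1, sub_self]
    have h3 : IsUnit (∑ i ∈ Finset.range (q - 1), M.det ^ i) := by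
      refine isUnit_of_sub_mem (b := ((q - 1 : ℕ) : R)) ?_
        (natCast_not_mem_maximalIdeal hp hpR hq1)
      have : (∑ i ∈ Finset.range (q - 1), M.det ^ i) - ((q - 1 : ℕ) : R) =
          ∑ i ∈ Finset.range (q - 1), (M.det ^ i - 1) := by
        rw [Finset.sum_sub_distrib]
        simp
      rw [this]
      refine Ideal.sum_mem _ fun i _ => ?_
      have : M.det ^ i - 1 = (∑ j ∈ Finset.range i, M.det ^ j) * (M.det - 1) := by
        rw [geom_sum_mul]
      rw [this]
      exact Ideal.mul_mem_left _ _ hd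
    have h4 : M.det - 1 = 0 := (IsUnit.mul_right_eq_zero h3).1 h2
    exact sub_eq_zero.1 h4
  refine ⟨?_, hd1⟩
  -- the trace
  obtain ⟨⟨f, hf, hfI⟩, -⟩ := exists_trace_pow_eq M hd1 (maximalIdeal R) ht q
  rw [htr] at hf
  have h5 : (M.trace - 2) * (f - 1) = 0 := by
    have : (M.trace - 2) * (f - 1) = (2 + (M.trace - 2) * f) - M.trace := by ring
    rw [this, ← hf, sub_self]
  have h6 : IsUnit (f - 1) := by
    refine isUnit_of_sub_mem (b := ((q ^ 2 - 1 : ℕ) : R)) ?_
      (natCast_not_mem_maximalIdeal hp hpR hcop)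
    have hq2 : 1 ≤ q ^ 2 := Nat.one_le_pow _ _ (by omega)
    have : f - 1 - ((q ^ 2 - 1 : ℕ) : R) = f - (q : R) ^ 2 := by
      rw [Nat.cast_sub hq2]
      push_cast
      ring
    rw [this]
    exact hfI
  have h7 : M.trace - 2 = 0 := (IsUnit.mul_left_eq_zero h6).1 h5
  exact sub_eq_zero.1 h7

end Matrix

end Fermat.Agent.S59.H207
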