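import Mathlib
import Fermat.Prelude.Def_GaloisRep_Adic
import Fermat.Prelude.Def_GaloisRep_LocalConditions
import Fermat.Prelude.Def_FLTPrelim_Ramification
import Fermat.Prelude.Def_EllipticCurve_FrobeniusTrace
import Fermat.Agent.Ribet.H43.TameConj
import Fermat.Agent.S59.H207.UnipAlg

/-!
# Row S59, cell (C) LO-SQ — EASY half, Galois side (helper207)

`ρ : G_ℚ → GL₂(O)` an adic representation over a Noetherian local ring `O` with `p ∈ 𝔪`,
`q ≠ p` a prime with `p ∤ q² - 1`.

**If `ρ` is RESIDUALLY unipotent on the inertia groups at `q`, it is unipotent on them**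
(`isUnipotentOnInertiaAt_of_residual`).

Proof.  For `τ ∈ I_P` put `T = ρ(τ)`.  Residual unipotence gives `(T - 1)² ≡ 0 mod 𝔪`, hence
`T ^ (p ^ n) ≡ 1 mod 𝔪ⁿ`: inertia acts on `V / 𝔪ⁿ V` through exponent `p ^ n`, prime to `q`.
The tame relation (`Ribet.H43.tame_conj_smul`) for a Frobenius element `σ` at `P` gives
`ρ(σ τ σ⁻¹) ≡ ρ(τ) ^ q mod 𝔪ⁿ` for all `n`, hence equality (Krull), hence
`charpoly (T ^ q) = charpoly T`, and `UnipAlg.trace_det_of_charpoly_pow_eq` applies.

Use: a newform `g` of level `M`, `q² ∥ M`, congruent mod `p` to a curve which is semistable at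
`q` would have `ρ_g` unipotent on inertia at `q`, contradicting frozen S36 — the engine-free
proof of LO-SQ for `p ∤ q² - 1`.
-/

set_option autoImplicit false
set_option linter.unusedSectionVars false
set_option linter.style.haveILetI false

namespace Fermat.Agent.S59.H207

open Polynomial IsLocalRing

/-! ## Endomorphisms mapping into `J V` -/

section MapsInto

variable {R : Type*} [CommRing R] {V : Type*} [AddCommGroup V] [Module R V]

/-- `E` maps `V` into `J • V`. -/
def MapsInto (J : Ideal R) (E : Module.End R V) : Prop :=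
  ∀ v : V, E v ∈ (J • ⊤ : Submodule R V)

theorem MapsInto.add {J : Ideal R} {E F : Module.End R V} (hE : MapsInto J E)
    (hF : MapsInto J F) : MapsInto J (E + F) := fun v => by
  rw [LinearMap.add_apply]
  exact Submodule.add_mem _ (hE v) (hF v)

theorem MapsInto.sub {J : Ideal R} {E F : Module.End R V} (hE : MapsInto J E)
    (hF : MapsInto J F) : MapsInto J (E - F) := fun v => by
  rw [LinearMap.sub_apply]
  exact Submodule.sub_mem _ (hE v) (hF v)

theorem MapsInto.mul_right {J : Ideal R} {E : Module.End R V} (hE : MapsInto J E)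
    (G : Module.End R V) : MapsInto J (E * G) := fun v => hE (G v)

theorem MapsInto.mul_left {J : Ideal R} {E : Module.End R V} (hE : MapsInto J E)
    (G : Module.End R V) : MapsInto J (G * E) := fun v =>
  Submodule.smul_top_le_comap_smul_top J G (hE v)

theorem MapsInto.mono {J J' : Ideal R} (h : J ≤ J') {E : Module.End R V} (hE : MapsInto J E) :
    MapsInto J' E := fun v => Submodule.smul_mono_left h (hE v)

theorem mapsInto_smul {J : Ideal R} {a : R} (ha : a ∈ J) (G : Module.End R V) :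
    MapsInto J (a • G) := fun v => by
  rw [LinearMap.smul_apply]
  exact Submodule.smul_mem_smul ha Submodule.mem_top

theorem mapsInto_natCast_mul {J : Ideal R} {n : ℕ} (hn : (n : R) ∈ J) (G : Module.End R V) :
    MapsInto J ((n : Module.End R V) * G) := by
  have : (n : Module.End R V) * G = (n : R) • G := by
    rw [Nat.cast_smul_eq_nsmul R, nsmul_eq_mul]
  rw [this]
  exact mapsInto_smul hn G

/-- Composition multiplies the ideals. -/
theorem MapsInto.mul {J J' : Ideal R} {E F : Module.End R V} (hE : MapsInto J E)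
    (hF : MapsInto J' F) : MapsInto (J * J') (F * E) := fun v => by
  have key : ∀ x ∈ (J • ⊤ : Submodule R V), F x ∈ ((J * J') • ⊤ : Submodule R V) := by
    intro x hx
    induction hx using Submodule.smul_induction_on' with
    | smul a ha w _ =>
      rw [map_smul, Submodule.mul_smul]
      exact Submodule.smul_mem_smul ha (hF w)
    | add x hx y hy ihx ihy =>
      rw [map_add]
      exact Submodule.add_mem _ ihx ihy
  exact key _ (hE v)

/-- `U ≡ 1 mod J ⟹ U ^ i ≡ 1 mod J`. -/
theorem MapsInto.pow_sub_one {J : Ideal R} {U : Module.End R V} (hU : MapsInto J (U - 1))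
    (i : ℕ) : MapsInto J (U ^ i - 1) := by
  rw [← geom_sum_mul]
  exact hU.mul_left _

/-- `U ≡ 1 mod J`, `J ≤ 𝔞`, `p ∈ 𝔞 ⟹ U ^ p ≡ 1 mod J 𝔞`. -/
theorem MapsInto.pow_prime_sub_one {J 𝔞 : Ideal R} {U : Module.End R V}
    (hU : MapsInto J (U - 1)) (hJ : J ≤ 𝔞) {p : ℕ} (hp : (p : R) ∈ 𝔞) :
    MapsInto (J * 𝔞) (U ^ p - 1) := by
  rw [← geom_sum_mul]
  refine hU.mul ?_
  -- `∑_{i<p} U^i = p + ∑ (U^i - 1)`
  have hsum : (∑ i ∈ Finset.range p, U ^ i) =
      (p : Module.End R V) * 1 + ∑ i ∈ Finset.range p, (U ^ i - 1) := by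
    rw [Finset.sum_sub_distrib]
    simp
  rw [hsum]
  refine (mapsInto_natCast_mul hp 1).add ?_
  intro v
  rw [LinearMap.sum_apply]
  exact Submodule.sum_mem _ fun i _ => ((hU.pow_sub_one i).mono hJ) v

/-- `(T - 1)² ≡ 0 mod 𝔞`, `p ∈ 𝔞`, `p` prime `⟹ T ^ p ≡ 1 mod 𝔞`. -/
theorem mapsInto_pow_prime_of_sq {𝔞 : Ideal R} {T : Module.End R V}
    (hT : MapsInto 𝔞 ((T - 1) ^ 2)) {p : ℕ} (hp : p.Prime) (hpa : (p : R) ∈ 𝔞) :
    MapsInto 𝔞 (T ^ p - 1) := by
  have hc : Commute (T - 1) (1 : Module.End R V) := Commute.one_right _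
  obtain ⟨r, hr⟩ := Commute.exists_add_pow_prime_eq hp hc
  rw [sub_add_cancel, one_pow, mul_one] at hr
  have h2 : (T - 1) ^ p = (T - 1) ^ 2 * (T - 1) ^ (p - 2) := by
    rw [← pow_add]
    congr 1
    have := hp.two_le
    omega
  have e : T ^ p - 1 = (T - 1) ^ 2 * (T - 1) ^ (p - 2) + (p : Module.End R V) * ((T - 1) * r) := by
    rw [hr, h2, mul_assoc]
    abel
  rw [e]
  exact (hT.mul_right _).add (mapsInto_natCast_mul hpa _)

/-- `(T - 1)² ≡ 0 mod 𝔞`, `p ∈ 𝔞 ⟹ T ^ (p ^ n) ≡ 1 mod 𝔞ⁿ`. -/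
theorem mapsInto_pow_pow_of_sq {𝔞 : Ideal R} {T : Module.End R V}
    (hT : MapsInto 𝔞 ((T - 1) ^ 2)) {p : ℕ} (hp : p.Prime) (hpa : (p : R) ∈ 𝔞) (n : ℕ) :
    MapsInto (𝔞 ^ n) (T ^ (p ^ n) - 1) := by
  induction n with
  | zero =>
    intro v
    rw [pow_zero, Ideal.one_eq_top, Submodule.top_smul]
    exact Submodule.mem_top
  | succ n ih =>
    rcases Nat.eq_zero_or_pos n with h0 | hpos
    · subst h0
      rw [zero_add, pow_one, pow_one]
      exact mapsInto_pow_prime_of_sq hT hp hpa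
    · have hle : 𝔞 ^ n ≤ 𝔞 := Ideal.pow_le_self hpos.ne'
      have := ih.pow_prime_sub_one hle hpa
      rw [← pow_mul, ← pow_succ, ← pow_succ] at this
      exact this

end MapsInto

/-! ## Rank two -/

section RankTwo

variable {R : Type*} [CommRing R] [IsLocalRing R] {V : Type*} [AddCommGroup V] [Module R V]
  [Module.Free R V] [Module.Finite R V]

/-- Residual unipotence of a `2 × 2` matrix: `tr ≡ 2`, `det ≡ 1`. -/
theorem trace_det_mem_of_residual (M : Matrix (Fin 2) (Fin 2) R)
    (h : M.charpoly.map (residue R) = (X - 1) ^ 2) :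
    M.trace - 2 ∈ maximalIdeal R ∧ M.det - 1 ∈ maximalIdeal R := by
  rw [Matrix.charpoly_fin_two] at h
  have e : ((X : (ResidueField R)[X]) - 1) ^ 2 = X ^ 2 - C 2 * X + C 1 := by
    simp only [map_ofNat, map_one]
    ring
  rw [e] at h
  simp only [Polynomial.map_add, Polynomial.map_sub, Polynomial.map_mul, Polynomial.map_pow,
    Polynomial.map_X, Polynomial.map_C] at h
  have h1 := congrArg (fun P : (ResidueField R)[X] => P.coeff 1) h
  have h0 := congrArg (fun P : (ResidueField R)[X] => P.coeff 0) h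
  simp only [coeff_add, coeff_sub, coeff_X_pow, coeff_C_mul, coeff_X_one, coeff_C,
    coeff_X_zero] at h1 h0
  have ht : residue R M.trace = 2 := by simpa using h1
  have hd : residue R M.det = 1 := by simpa using h0
  constructor
  · rw [← residue_eq_zero_iff, map_sub, ht, map_ofNat, sub_self]
  · rw [← residue_eq_zero_iff, map_sub, hd, map_one, sub_self]

variable (hV : Module.finrank R V = 2) (T : Module.End R V)

include hV in
/-- Residual unipotence gives `(T - 1)² ≡ 0 mod 𝔪`. -/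
theorem mapsInto_sq_of_residual (h : T.charpoly.map (residue R) = (X - 1) ^ 2) :
    MapsInto (maximalIdeal R) ((T - 1) ^ 2) := by
  let b : Module.Basis (Fin 2) R V := Module.finBasisOfFinrankEq R V hV
  set e := LinearMap.toMatrixAlgEquiv b with he
  set M : Matrix (Fin 2) (Fin 2) R := e T with hM
  have hch : M.charpoly = T.charpoly := LinearMap.charpoly_toMatrix T b
  rw [← hch] at h
  obtain ⟨ht, hd⟩ := trace_det_mem_of_residual M h
  have hsq : T ^ 2 = M.trace • T - M.det • (1 : Module.End R V) := by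
    apply e.injective
    rw [map_pow, map_sub, map_smul, map_smul, map_one]
    exact sq_eq_trace_smul_sub_det M
  have e2 : (T - 1) ^ 2 = (M.trace - 2) • T + (1 - M.det) • (1 : Module.End R V) := by
    have h1 : (T - 1) ^ 2 = T ^ 2 - T - T + 1 := by
      noncomm_ring
    have h2 : (M.trace - 2) • T = M.trace • T - T - T := by
      rw [sub_smul, ofNat_smul_eq_nsmul, two_smul]
      abel
    rw [h1, hsq, h2, sub_smul, one_smul]
    abel
  rw [e2]
  refine (mapsInto_smul ht T).add (mapsInto_smul ?_ 1)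
  have : 1 - M.det = -(M.det - 1) := by ring
  rw [this]
  exact Ideal.neg_mem_iff _ |>.2 hd

include hV in
/-- **The algebra of the easy half, for endomorphisms.** -/
theorem charpoly_eq_of_pow_of_residual {p q : ℕ} (hp : p.Prime)
    (hpR : (p : R) ∈ maximalIdeal R) (hq : 2 ≤ q) (hcop : ¬ p ∣ q ^ 2 - 1)
    (hpow : (T ^ q).charpoly = T.charpoly)
    (h : T.charpoly.map (residue R) = (X - 1) ^ 2) :
    T.charpoly = (X - 1) ^ 2 := by
  let b : Module.Basis (Fin 2) R V := Module.finBasisOfFinrankEq R V hV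
  set e := LinearMap.toMatrixAlgEquiv b with he
  set M : Matrix (Fin 2) (Fin 2) R := e T with hM
  have hch : M.charpoly = T.charpoly := LinearMap.charpoly_toMatrix T b
  have hchq : (M ^ q).charpoly = (T ^ q).charpoly := by
    rw [hM, ← map_pow]
    exact LinearMap.charpoly_toMatrix (T ^ q) b
  have h' := h
  rw [← hch] at h'
  obtain ⟨ht, hd⟩ := trace_det_mem_of_residual M h'
  obtain ⟨ht2, hd1⟩ := trace_det_of_charpoly_pow_eq M hp hpR hq hcop
    (by rw [hchq, hpow, hch]) ht hd
  rw [← hch, Matrix.charpoly_fin_two, ht2, hd1]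
  simp only [map_ofNat, map_one]
  ring

end RankTwo

/-! ## The Galois side -/

section Galois

/-- `ℚ̄` -/
abbrev Qbar : Type := AlgebraicClosure ℚ

/-- `Gal(ℚ̄/ℚ)` -/
abbrev GalQ : Type := Qbar ≃ₐ[ℚ] Qbar

variable {O : Type} [CommRing O] [IsLocalRing O] (ρ : GaloisRepAdic O)

set_option warn.classDefReducibility false in
/-- The action of `G_ℚ` on `V / J V`. -/
noncomputable def quotAction (J : Ideal O) :
    MulAction GalQ (ρ.V ⧸ (J • ⊤ : Submodule O ρ.V)) where
  smul g x := Submodule.mapQ _ _ (ρ.ρ g) (Submodule.smul_top_le_comap_smul_top J (ρ.ρ g)) x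
  one_smul x := by
    induction x using Submodule.Quotient.induction_on with
    | _ v =>
      show Submodule.mapQ _ _ (ρ.ρ 1) _ (Submodule.Quotient.mk v) = Submodule.Quotient.mk v
      rw [Submodule.mapQ_apply, map_one]
      rfl
  mul_smul g h x := by
    induction x using Submodule.Quotient.induction_on with
    | _ v =>
      show Submodule.mapQ _ _ (ρ.ρ (g * h)) _ (Submodule.Quotient.mk v) =
        Submodule.mapQ _ _ (ρ.ρ g) _ (Submodule.mapQ _ _ (ρ.ρ h) _ (Submodule.Quotient.mk v))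
      rw [Submodule.mapQ_apply, Submodule.mapQ_apply, Submodule.mapQ_apply, map_mul]
      rfl

theorem quotAction_mk (J : Ideal O) (g : GalQ) (v : ρ.V) :
    letI := quotAction ρ J
    g • (Submodule.Quotient.mk v : ρ.V ⧸ (J • ⊤ : Submodule O ρ.V)) =
      Submodule.Quotient.mk (ρ.ρ g v) := rfl

variable [IsNoetherianRing O]

/-- **The tame relation for a residually unipotent representation**:
`ρ(σ τ σ⁻¹) = ρ(τ) ^ q` for a Frobenius element `σ` at `P` and `τ ∈ I_P`. -/
theorem rho_conj_eq_pow {p q : ℕ} (hp : p.Prime) (hq : q.Prime) (hpq : p ≠ q)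
    (hpO : (p : O) ∈ maximalIdeal O)
    (P : ValuationSubring Qbar) (hP : P.LiesOverPrime q)
    (hres : ∀ τ ∈ P.inertiaSubgroupIn ℚ,
      (LinearMap.charpoly (ρ.ρ τ)).map (residue O) = (X - 1) ^ 2)
    {σ τ : GalQ} (hσ : P.IsFrobeniusAt σ q) (hτ : τ ∈ P.inertiaSubgroupIn ℚ) :
    ρ.ρ (σ * τ * σ⁻¹) = ρ.ρ τ ^ q := by
  haveI : Algebra.IsAlgebraic ℚ Qbar := AlgebraicClosure.isAlgebraic ℚ
  have hKrull : (⨅ n : ℕ, maximalIdeal O ^ n • ⊤ : Submodule O ρ.V) = ⊥ :=
    Ideal.iInf_pow_smul_eq_bot_of_isLocalRing _ (maximalIdeal.isMaximal O).ne_top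
  apply LinearMap.ext
  intro v
  rw [← sub_eq_zero, ← Submodule.mem_bot O, ← hKrull, Submodule.mem_iInf]
  intro n
  -- the action on `V / 𝔪ⁿ V`
  letI := quotAction ρ (maximalIdeal O ^ n)
  obtain ⟨E, hEfin, hE⟩ := ρ.isAdicContinuous n
  haveI := hEfin
  have hqm : ¬ q ∣ p ^ n := by
    intro h
    exact hpq ((Nat.prime_dvd_prime_iff_eq hq hp).1 (hq.dvd_of_dvd_pow h)).symm
  have key := Fermat.Agent.Ribet.H43.tame_conj_smul (K := ℚ) (L := Qbar) P
    (X := ρ.V ⧸ (maximalIdeal O ^ n • ⊤ : Submodule O ρ.V)) hq hP hσ hτ E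
    (fun g hg x => by
      induction x using Submodule.Quotient.induction_on with
      | _ w =>
        rw [quotAction_mk, Submodule.Quotient.eq]
        exact hE g hg w)
    (p ^ n) hqm
    (fun τ' hτ' x => by
      induction x using Submodule.Quotient.induction_on with
      | _ w =>
        rw [quotAction_mk, Submodule.Quotient.eq, map_pow]
        have h1 := mapsInto_pow_pow_of_sq
          (mapsInto_sq_of_residual ρ.finrank_eq (ρ.ρ τ') (hres τ' hτ')) hp hpO n w
        rwa [LinearMap.sub_apply, Module.End.one_apply] at h1)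
    (Submodule.Quotient.mk v)
  rw [quotAction_mk, quotAction_mk, Submodule.Quotient.eq, map_pow] at key
  exact key

/-- **EASY half, Galois side.**  A representation which is residually unipotent on the inertia
groups at `q`, with `p ∤ q² - 1`, is unipotent on them. -/
theorem isUnipotentOnInertiaAt_of_residual {p q : ℕ} (hp : p.Prime) (hq : q.Prime)
    (hpq : p ≠ q) (hcop : ¬ p ∣ q ^ 2 - 1) (hpO : (p : O) ∈ maximalIdeal O)
    (hfrob : ∀ P : ValuationSubring Qbar, P.LiesOverPrime q → ∃ σ : GalQ, P.IsFrobeniusAt σ q)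
    (hres : ∀ P : ValuationSubring Qbar, P.LiesOverPrime q → ∀ τ ∈ P.inertiaSubgroupIn ℚ,
      (LinearMap.charpoly (ρ.ρ τ)).map (residue O) = (X - 1) ^ 2) :
    ρ.IsUnipotentOnInertiaAt q := by
  intro P hP τ hτ
  obtain ⟨σ, hσ⟩ := hfrob P hP
  have hconj := rho_conj_eq_pow ρ hp hq hpq hpO P hP (hres P hP) hσ hτ
  -- conjugation does not change the characteristic polynomial
  have hpow : (ρ.ρ τ ^ q).charpoly = (ρ.ρ τ).charpoly := by
    rw [← hconj, map_mul, map_mul]
    have hu : ρ.ρ σ * ρ.ρ σ⁻¹ = 1 := by rw [← map_mul, mul_inv_cancel, map_one]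
    have hu' : ρ.ρ σ⁻¹ * ρ.ρ σ = 1 := by rw [← map_mul, inv_mul_cancel, map_one]
    let e : ρ.V ≃ₗ[O] ρ.V := LinearEquiv.ofLinearMap (ρ.ρ σ) (ρ.ρ σ⁻¹) hu hu'
    have : ρ.ρ σ * ρ.ρ τ * ρ.ρ σ⁻¹ = e.conj (ρ.ρ τ) := by
      apply LinearMap.ext
      intro v
      rfl
    rw [this]
    exact LinearEquiv.charpoly_conj e (ρ.ρ τ)
  exact charpoly_eq_of_pow_of_residual ρ.finrank_eq (ρ.ρ τ) hp hpO hq.two_le hcop hpow
    (hres P hP τ hτ)

end Galois

end Fermat.Agent.S59.H207
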